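import Fermat.Statements.S36
import Fermat.Agent.S36.W.Wiring

/-!
# S58: Carayol's theorem (S36) without the residual hypothesis (the proof of `S36.result` does not use it)
-/

set_option autoImplicit false
open Polynomial
open CuspForm CuspForm.IsNewform

namespace Fermat.Agent.S58

theorem carayol
    {M : ℕ} [NeZero M] {g : CuspForm (CongruenceSubgroup.Gamma0 M) 2} (hg : g.IsNewform)
    (lam : ℕ) [Fact lam.Prime]
    (S : Finset ℕ)
    (O' : Type) [CommRing O'] [IsDomain O'] [IsDiscreteValuationRing O']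
    [IsAdicComplete (IsLocalRing.maximalIdeal O') O'] [Finite (IsLocalRing.ResidueField O')]
    [CharZero O'] (hlamO' : (lam : O') ∈ IsLocalRing.maximalIdeal O')
    (chig : CuspForm.heckeAlgebra M 2 (↑S : Set ℕ) →+* ℂ)
    (hchig : ∀ (ℓ : ℕ) (hℓ : ℓ.Prime) (hℓM : ¬ ℓ ∣ M) (hℓS : ℓ ∉ (↑S : Set ℕ)),
      chig (CuspForm.heckeAlgebra.T hℓ hℓM hℓS) = ModularFormClass.qCoeff g ℓ)
    (iota : chig.range →+* O')
    (hlamS : lam ∈ S) (hMS : ∀ q : ℕ, q.Prime → q ∣ M → q ∈ S) :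
    ∃ ρ : GaloisRepAdic O',
        (∀ (ℓ : ℕ) (hℓ : ℓ.Prime) (hℓM : ¬ ℓ ∣ M) (hℓS : ℓ ∉ (↑S : Set ℕ)),
          ∀ A : ValuationSubring (AlgebraicClosure ℚ), A.LiesOverPrime ℓ →
            ∀ σ : AlgebraicClosure ℚ ≃ₐ[ℚ] AlgebraicClosure ℚ, A.IsFrobeniusAt σ ℓ →
              LinearMap.charpoly (ρ.ρ σ) =
                X ^ 2 - C ((iota.comp chig.rangeRestrict) (CuspForm.heckeAlgebra.T hℓ hℓM hℓS)) * X
                  + C ((ℓ : O'))) ∧
        (∀ q : ℕ, q.Prime → q ≠ lam → M.factorization q = 2 → ¬ ρ.IsUnipotentOnInertiaAt q) := by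
  classical
  have hlam : lam.Prime := Fact.out
  haveI : NeZero lam := ⟨hlam.ne_zero⟩
  obtain ⟨C⟩ := Fermat.Agent.NEW.exists_coord M lam hlam
  obtain ⟨ρ, hρ, hρR⟩ := Fermat.Agent.NEW.exists_rep' C.toAdicESDatum O' hlamO'
  obtain ⟨t, d, ρ₂, -, hrel, hchar, ⟨v₀, hv₀, hv₀ne⟩, hstab, -, hfrob, -⟩ :=
    Fermat.Agent.NEW.main' C.toAdicESDatum S hlamS O' hlamO' (iota.comp chig.rangeRestrict) ρ hρ
  refine ⟨ρ₂, hfrob, ?_⟩
  intro q hq hqlam hfac hunip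
  exact Fermat.Agent.S36.W.wiring hg lam S O' hlamO' chig hchig iota hlamS hMS C ρ hρR t d ρ₂
    hrel hchar v₀ hv₀ hv₀ne hstab q hq hqlam hfac hunip

end Fermat.Agent.S58
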