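import Fermat.Agent.S58.Defs
import Fermat.Agent.S29.Bridge
import Fermat.Agent.S49.Algebra
import Fermat.Prelude.Def_CuspForm_HeckeGaloisRepDatum

/-!
# S58, chapter CHAR: the Hecke character of an eigenform with rational integral eigenvalues, with values in `ℤ_[lam]`
-/

set_option autoImplicit false

namespace Fermat.Agent.S58

open ModularFormClass

instance instFiniteResPadic (lam : ℕ) [Fact lam.Prime] :
    Finite (IsLocalRing.ResidueField ℤ_[lam]) :=
  Finite.of_equiv (ZMod lam) (PadicInt.residueField (p := lam)).symm.toEquiv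

theorem lam_mem_maximalIdeal (lam : ℕ) [Fact lam.Prime] :
    (lam : ℤ_[lam]) ∈ IsLocalRing.maximalIdeal ℤ_[lam] := by
  rw [PadicInt.maximalIdeal_eq_span_p]
  exact Ideal.mem_span_singleton_self _

/-- a subring of `ℂ` consisting of rational integers maps to every ring. -/
theorem exists_hom_of_int (R : Subring ℂ) (hR : ∀ x ∈ R, ∃ n : ℤ, x = (n : ℂ))
    (A : Type) [Ring A] :
    ∃ i : R →+* A, ∀ (x : R) (n : ℤ), (x : ℂ) = (n : ℂ) → i x = (n : A) := by
  classical
  choose! c hc using hR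
  have inj : Function.Injective (fun n : ℤ => (n : ℂ)) := Int.cast_injective
  let j : R →+* ℤ :=
    { toFun := fun x => c x
      map_one' := by
        apply inj
        simp only
        rw [← hc _ (1 : R).2]
        simp
      map_mul' := by
        intro x y
        apply inj
        simp only
        rw [← hc _ (x * y).2, Int.cast_mul, ← hc _ x.2, ← hc _ y.2]
        simp
      map_zero' := by
        apply inj
        simp only
        rw [← hc _ (0 : R).2]
        simp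
      map_add' := by
        intro x y
        apply inj
        simp only
        rw [← hc _ (x + y).2, Int.cast_add, ← hc _ x.2, ← hc _ y.2]
        simp }
  refine ⟨(Int.castRingHom A).comp j, ?_⟩
  intro x n hx
  have : j x = n := by
    apply inj
    show ((c x : ℤ) : ℂ) = n
    rw [← hc _ x.2, hx]
  simp [this]

/-- CHAR. -/
theorem exists_char {M : ℕ} [NeZero M] {g : CuspForm (CongruenceSubgroup.Gamma0 M) 2}
    (hg : g.IsNormalizedEigenform) (S : Finset ℕ) (hMS : ∀ q : ℕ, q.Prime → q ∣ M → q ∈ S)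
    (a : ℕ → ℤ) (ha : ∀ ℓ : ℕ, ℓ.Prime → ℓ ∉ S → qCoeff g ℓ = (a ℓ : ℂ))
    (lam : ℕ) [Fact lam.Prime] :
    ∃ (chig : CuspForm.heckeAlgebra M 2 (↑S : Set ℕ) →+* ℂ) (iota : chig.range →+* ℤ_[lam]),
      (∀ (ℓ : ℕ) (hℓ : ℓ.Prime) (hℓM : ¬ ℓ ∣ M) (hℓS : ℓ ∉ (↑S : Set ℕ)),
        chig (CuspForm.heckeAlgebra.T hℓ hℓM hℓS) = qCoeff g ℓ) ∧
      (∀ (ℓ : ℕ) (hℓ : ℓ.Prime) (hℓM : ¬ ℓ ∣ M) (hℓS : ℓ ∉ (↑S : Set ℕ)),
        (iota.comp chig.rangeRestrict) (CuspForm.heckeAlgebra.T hℓ hℓM hℓS) = (a ℓ : ℤ_[lam])) := by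
  classical
  have hg0 : g ≠ 0 := S29.ne_zero_of_eigenform hg
  -- every element of the Hecke algebra acts on `g` through a rational integer
  have hint : ∀ t ∈ CuspForm.heckeAlgebra M 2 (↑S : Set ℕ), ∃ n : ℤ, t g = (n : ℂ) • g := by
    intro t ht
    induction ht using Algebra.adjoin_induction with
    | mem x hx =>
      rcases hx with ⟨ℓ, hℓ, hℓN, hℓS, rfl⟩ | ⟨q, hqN, hq, hqS, rfl⟩
      · refine ⟨a ℓ, ?_⟩
        rw [S29.heckeTLin_eq_smul hg, ha ℓ hℓ (by simpa using hℓS)]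
      · exact absurd (by simpa using hMS q hq hqN) hqS
    | algebraMap r =>
      refine ⟨r, ?_⟩
      rw [Algebra.algebraMap_eq_smul_one, LinearMap.smul_apply, Module.End.one_apply,
        Int.cast_smul_eq_zsmul]
    | add x y _ _ hx hy =>
      obtain ⟨m, hm⟩ := hx
      obtain ⟨n, hn⟩ := hy
      refine ⟨m + n, ?_⟩
      rw [LinearMap.add_apply, hm, hn, Int.cast_add, add_smul]
    | mul x y _ _ hx hy =>
      obtain ⟨m, hm⟩ := hx
      obtain ⟨n, hn⟩ := hy
      refine ⟨m * n, ?_⟩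
      rw [Module.End.mul_apply, hn, map_smul, hm, smul_smul, Int.cast_mul, mul_comm]
  obtain ⟨chig, hchig⟩ := S49.exists_character
    ((CuspForm.heckeAlgebra M 2 (↑S : Set ℕ)).val.toRingHom) g hg0 (fun s => by
      obtain ⟨n, hn⟩ := hint s.1 s.2
      exact ⟨n, hn⟩)
  have inj : Function.Injective (fun x : ℂ => x • g) := smul_left_injective ℂ hg0
  have hT : ∀ (ℓ : ℕ) (hℓ : ℓ.Prime) (hℓM : ¬ ℓ ∣ M) (hℓS : ℓ ∉ (↑S : Set ℕ)),
      chig (CuspForm.heckeAlgebra.T hℓ hℓM hℓS) = qCoeff g ℓ := by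
    intro ℓ hℓ hℓM hℓS
    apply inj
    simp only
    rw [← hchig, ← S29.heckeTLin_eq_smul hg hℓ hℓM]
    rfl
  have hrange : ∀ x ∈ chig.range, ∃ n : ℤ, x = (n : ℂ) := by
    rintro x ⟨s, rfl⟩
    obtain ⟨n, hn⟩ := hint s.1 s.2
    refine ⟨n, ?_⟩
    apply inj
    simp only
    rw [← hchig, ← hn]
    rfl
  obtain ⟨iota, hiota⟩ := exists_hom_of_int chig.range hrange ℤ_[lam]
  refine ⟨chig, iota, hT, ?_⟩
  intro ℓ hℓ hℓM hℓS
  rw [RingHom.comp_apply]
  apply hiota
  show chig _ = _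
  rw [hT, ha ℓ hℓ (by simpa using hℓS)]

end Fermat.Agent.S58
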