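import Fermat.Statements.S58
import Fermat.Prelude.Def_EllipticCurve_FrobeniusTrace
import Fermat.Agent.S05.Frey

/-!
# S58 (conductor-level matching): definitions

* `EP W = E(ℚ̄)` for an integral Weierstrass equation `W` (points of `W⁄ℚ̄`, `W` over `ℤ`), with the
  Prelude's Galois action `σ • Q`;
* `Kap A` : the residue field of a valuation subring `A` of `ℚ̄`;
* `frobPt W ℓ k` : the Frobenius endomorphism of `(W⁄k).Point`, `k` a field of characteristic `ℓ`;
* `Ker1 A hq hA Q` : `Q` lies in the kernel of reduction (`S05.InE1` for the valuation of `A`).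
-/

set_option autoImplicit false

noncomputable section

namespace Fermat.Agent.S58

open WeierstrassCurve WeierstrassCurve.Affine

/-- `ℚ̄`. -/
abbrev Qb : Type := AlgebraicClosure ℚ

/-- `G_ℚ`. -/
abbrev GQ : Type := Qb ≃ₐ[ℚ] Qb

/-- `E(ℚ̄)`. -/
abbrev EP (W : WeierstrassCurve ℤ) : Type := (W⁄Qb).Point

/-- the residue field of `A`. -/
abbrev Kap (A : ValuationSubring Qb) : Type := IsLocalRing.ResidueField A

instance instDecEqKap (A : ValuationSubring Qb) : DecidableEq (Kap A) := Classical.decEq _

/-- the Frobenius endomorphism on the points of `W` over a field of characteristic `ℓ`. -/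
def frobPt (W : WeierstrassCurve ℤ) (ℓ : ℕ) [Fact ℓ.Prime] (k : Type*) [Field k] [CharP k ℓ]
    [DecidableEq k] : (W⁄k).Point →+ (W⁄k).Point :=
  Point.map (W' := W) (frobenius k ℓ).toIntAlgHom

/-- the kernel of reduction at `A`. -/
def Ker1 {W : WeierstrassCurve ℤ} (A : ValuationSubring Qb) {q : ℕ} (hq : q.Prime)
    (hA : A.LiesOverPrime q) (Q : EP W) : Prop :=
  Fermat.Agent.S05.InE1 (Fermat.Agent.S05.qvalA A hq hA) 0 Q

end Fermat.Agent.S58
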