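import Fermat.Agent.S58.Defs
import Fermat.Agent.S52.CH
import Fermat.Agent.S58.GCH.Sub
import Fermat.Agent.S58.GCH.End

/-!
# S58, chapter GCH: Cayley-Hamilton (up to 2-torsion) for the Frobenius endomorphism of a GENERAL
Weierstrass equation over `𝔽_ℓ`, ALL primes `ℓ` (including 2 and 3).

`W` an integral Weierstrass equation, `ℓ ∤ Δ`, `k` an algebraically closed field of characteristic `ℓ`,
`φ = frobPt W ℓ k`, `a = W.apOfModel ℓ = ℓ + 1 - #W(𝔽_ℓ)`.  Then `2 (φ² - a φ + ℓ) = 0` on `W(k)`.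

BLUEPRINT (generalisation of `S52/CH`; everything in `S52/CH/{Defs,Ladder*,Comp,Base,Zero,Hom}` is already
stated for an arbitrary `W : Affine k`).  Write `q = ℓ`, `l = a₁X + a₃`, `c = X³ + a₂X² + a₄X + a₆`
(so the equation is `y² + l y = c`), `D = X^q - X`, all in `𝔽_q[X]`.
* `y^j = u_j + v_j y` on the curve, `(u₀, v₀) = (1, 0)`, `(u_{j+1}, v_{j+1}) = (v_j c, u_j - l v_j)`;
  `2 deg u_j ≤ 3 j`, `2 deg v_j + 3 ≤ 3 j`.  `u = u_q`, `v = v_q`.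
* trace identity `2u - v l = - l(X^q)` and norm identity `u² - u v l - v² c = - c(X^q)`
  (from `y^q + ȳ^q = (y + ȳ)^q`, `(y ȳ)^q`, `ȳ = -y - l`; prove them e.g. pointwise on `k` + infinite field,
  or by induction on a two-variable statement).
* `P₀⁻ = c(X^q) + u l + l² + 2 v c + c + a₁ l D - (a₂ + X^q + X) D²`: monic of degree `2q + 1`, and for a point
  `(x, y)`: `P₀⁻(x) = (y^q + y + l)² + a₁ D (y^q + y + l) - (a₂ + x^q + x) D²`, hence `x(φP - P) = P₀⁻(x) / D(x)²`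
  if `x^q ≠ x`.
* `P₀⁺ = c(X^q) + c - l u - 2 v c - (a₂ + X^q + X) D²` (the same for `φP + P`),
  `P₀⁻ P₀⁺ = polS(X^{q+1}, X^q + X, 1) · D²`-type relation; at `x₀ ∈ 𝔽_q` with a point `(x₀, y₀)` over `k`:
  `P₀⁻(x₀) = (y₀^q - ȳ₀)²`, `P₀⁺(x₀) = (y₀^q - y₀)²`.
* `r(x₀) = #{y₀ ∈ 𝔽_q : (x₀, y₀) ∈ W}`.  `r = 2 ⟹ P₀⁻(x₀) ≠ 0`; `r = 0 ⟹ (X - x₀)² ∣ P₀⁻`;
  `r = 1 ⟹` multiplicity exactly 1 (`stu_ne_zero`).  `n = P₀⁻ / ∏ (X - x₀)^{2 - r}`, `d = ∏ (X - x₀)^r`,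
  `deg n = 1 + Σ r = #W(𝔽_q)`: `HasDeg (φ - 1) #W(𝔽_q)`.
* `endgame` needs `Odd q` only in the case `a` odd; for `q = 2`, `a` odd: `c ≡ q` is even, `c = 2 j₀`, and the ladder with
  step 2 reaches `ρ` itself with degree `(c - 2 j₀)² = 0`.
* `hpt` : `Affine.equation_iff_nonsingular_of_Δ_ne_zero` + `IsAlgClosed`.
-/

set_option autoImplicit false

namespace Fermat.Agent.S58

open WeierstrassCurve WeierstrassCurve.Affine

/-- CHAPTER GCH (final statement). -/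
theorem gch (W : WeierstrassCurve ℤ) (ℓ : ℕ) [Fact ℓ.Prime] (hΔ : ¬ (ℓ : ℤ) ∣ W.Δ)
    (k : Type) [Field k] [CharP k ℓ] [IsAlgClosed k] [DecidableEq k] (P : (W⁄k).Point) :
    (2 : ℤ) • (frobPt W ℓ k (frobPt W ℓ k P) - (W.apOfModel ℓ) • frobPt W ℓ k P + (ℓ : ℤ) • P) = 0 := by
  have hprime : ℓ.Prime := Fact.out
  have hpt := GCH.exists_nonsingular W ℓ hΔ k
  have hinf : Infinite k := IsAlgClosed.instInfinite
  have hap : W.apOfModel ℓ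
      = (ℓ : ℤ) + 1 - (Nat.card (W.reductionMod ℓ).toAffine.Point : ℤ) := by
    unfold WeierstrassCurve.apOfModel WeierstrassCurve.traceOfFrobenius
    simp [Nat.card_eq_fintype_card, ZMod.card, WeierstrassCurve.card]
  rw [hap]
  let H : AddMonoid.End (W⁄k).Point → ℕ → Prop := fun α D => S52.CH.HasDeg (fun P => α P) D
  have key := GCH.endgame' H
    (fun α D ⟨n, d, h, hD⟩ => ⟨n, d, h.neg, hD⟩)
    (fun α β D₁ D₂ D₃ ⟨n₁, d₁, h₁, e₁⟩ ⟨n₂, d₂, h₂, e₂⟩ ⟨n₃, d₃, h₃, e₃⟩ => by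
      obtain ⟨n₄, d₄, h₄, e₄⟩ := S52.CH.XRep.ladder hpt h₁ h₂ h₃
      exact ⟨n₄.natDegree, ⟨n₄, d₄, h₄, rfl⟩, by rw [← e₁, ← e₂, ← e₃]; exact e₄⟩)
    (fun α β D D' ⟨n₁, d₁, h₁, e₁⟩ ⟨n₂, d₂, h₂, e₂⟩ => by
      obtain ⟨n, d, h, e⟩ := S52.CH.XRep.comp (map_zero α) h₁ h₂
      exact ⟨n, d, h, by rw [e, e₁, e₂]⟩)
    (fun α h => S52.CH.eq_zero_of_hasDeg_zero hpt α h)
    ⟨1, 0, S52.CH.xrep_zero, by simp⟩
    ⟨Polynomial.X, 1, S52.CH.xrep_id, by simp⟩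
    (frobPt W ℓ k) ℓ (Nat.card (W.reductionMod ℓ).toAffine.Point)
    ⟨Polynomial.X ^ ℓ, 1, GCH.xrep_frobPt W ℓ k, by simp⟩
    (GCH.hasDeg_frob_sub_one W ℓ hΔ k)
  exact DFunLike.congr_fun key P

end Fermat.Agent.S58
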